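import Fermat.Agent.GaussProduct.Product
import Fermat.Agent.Root.SummaryGrossKoblitz
import Mathlib.FieldTheory.IsAlgClosed.Basic
import Mathlib.FieldTheory.IntermediateField.Adjoin.Basic
import Mathlib.NumberTheory.MulChar.Lemmas
import Mathlib.FieldTheory.Finite.Trace

/-!
# The product relation for arbitrary characters

Over `ℂ_p` every multiplicative character is a power of `ω⁻¹` and every additive character a shift
of the one of Dwork.  The values of the characters and the Gauss sums lie in a field of algebraic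
numbers, which embeds into `ℂ_p`.
-/

set_option autoImplicit false
set_option linter.unusedSectionVars false

noncomputable section

open Finset FA.DworkRationality FA.GrossKoblitz
open scoped Classical

namespace Fermat.Agent.GaussProduct

variable {p : ℕ} [hp : Fact p.Prime] {F : Type*} [Field F] [Fintype F]

local notation "Cp" => ℂ_[p]

theorem omega_eq_one {ω : MulChar F ℂ_[p]} (hω : ∀ x y : F, ‖ω (x + y) - ω x - ω y‖ < 1) {x : F}
    (hx : ω x = 1) : x = 1 := by
  by_contra h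
  have h1 := hω (x - 1) 1
  rw [sub_add_cancel, hx, MulChar.map_one, show (1 : Cp) - ω (x - 1) - 1 = -ω (x - 1) by ring,
    norm_neg] at h1
  have h2 : ω (x - 1) ^ (Fintype.card F - 1) = 1 := by
    rw [← map_pow, FiniteField.pow_card_sub_one_eq_one _ (sub_ne_zero.2 h), MulChar.map_one]
  have h3 : ‖ω (x - 1)‖ = 1 :=
    (pow_eq_one_iff_of_nonneg (norm_nonneg _)
      (Nat.sub_pos_of_lt Fintype.one_lt_card).ne').1 (by rw [← norm_pow, h2, norm_one])
  linarith

theorem exists_eq_omega_inv_pow {ω : MulChar F ℂ_[p]}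
    (hω : ∀ x y : F, ‖ω (x + y) - ω x - ω y‖ < 1) :
    orderOf ω⁻¹ = Fintype.card Fˣ ∧ ∀ χ : MulChar F ℂ_[p], ∃ a : ℕ, χ = ω⁻¹ ^ a := by
  obtain ⟨g, hg⟩ := IsCyclic.exists_generator (α := Fˣ)
  have hord : orderOf g = Fintype.card Fˣ := by
    rw [orderOf_eq_card_of_forall_mem_zpowers hg, Nat.card_eq_fintype_card]
  have hprim : IsPrimitiveRoot (ω⁻¹ (g : F)) (Fintype.card Fˣ) := by
    refine ⟨?_, fun l hl => ?_⟩
    · rw [← map_pow, ← Units.val_pow_eq_pow_val, pow_card_eq_one, Units.val_one, MulChar.map_one]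
    · rw [← hord]
      refine orderOf_dvd_of_pow_eq_one (Units.ext ?_)
      refine omega_eq_one hω ?_
      rw [← map_pow, ← Units.val_pow_eq_pow_val, MulChar.inv_apply_eq_inv', inv_eq_one] at hl
      exact hl
  have hpow : ∀ n : ℕ, ω⁻¹ ^ n = 1 ↔ ω⁻¹ (g : F) ^ n = 1 := fun n => by
    rw [MulChar.eq_iff hg, MulChar.pow_apply_coe, MulChar.one_apply_coe]
  refine ⟨?_, fun χ => ?_⟩
  · refine Nat.dvd_antisymm (orderOf_dvd_of_pow_eq_one ((hpow _).2 hprim.pow_eq_one))
      (hprim.dvd_of_pow_eq_one _ ((hpow _).1 (pow_orderOf_eq_one _)))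
  · have : NeZero (Fintype.card Fˣ) := ⟨Fintype.card_ne_zero⟩
    obtain ⟨a, -, ha⟩ := hprim.eq_pow_of_pow_eq_one (ξ := χ (g : F)) (by
      rw [← map_pow, ← Units.val_pow_eq_pow_val, pow_card_eq_one, Units.val_one, MulChar.map_one])
    exact ⟨a, (MulChar.eq_iff hg _ _).2 (by rw [MulChar.pow_apply_coe, ha])⟩

theorem traceChar_ne_one [Algebra (ZMod p) F] : traceChar (p := p) F ≠ 1 := fun h => by
  obtain ⟨x, hx⟩ := Algebra.trace_surjective (ZMod p) F 1
  have h1 := DFunLike.congr_fun h x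
  rw [AddChar.compAddMonoidHom_apply, AddChar.one_apply] at h1
  simp only [LinearMap.toAddMonoidHom_coe, hx] at h1
  rw [← Nat.cast_one (R := ZMod p), AddChar.zmodChar_apply', pow_one] at h1
  exact dworkRoot_spec.ne_one hp.out.one_lt h1

theorem gaussSum_map {S T : Type*} [CommRing S] [CommRing T] (g : S →+* T) (θ : MulChar F S)
    (φ : AddChar F S) :
    gaussSum (θ.ringHomComp g) (g.toMonoidHom.compAddChar φ) = g (gaussSum θ φ) := by
  simp only [gaussSum, map_sum, map_mul, MulChar.ringHomComp_apply, MonoidHom.compAddChar_apply,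
    Function.comp_apply]
  rfl

theorem exists_eq_mulShift {ψ₀ : AddChar F ℂ_[p]} (hψ₀ : ψ₀.IsPrimitive) (ψ : AddChar F ℂ_[p]) :
    ∃ c : F, ψ₀.mulShift c = ψ := by
  by_contra! h
  have hinj : Function.Injective
      fun o : Option F => (AddChar.toMonoidHom (o.elim ψ ψ₀.mulShift)) := by
    intro o o' ho
    have ho' : o.elim ψ ψ₀.mulShift = o'.elim ψ ψ₀.mulShift :=
      DFunLike.ext _ _ fun x => DFunLike.congr_fun ho (Multiplicative.ofAdd x)
    rcases o with _ | c <;> rcases o' with _ | c' <;> simp only [Option.elim] at ho'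
    · rfl
    · exact absurd ho'.symm (h c')
    · exact absurd ho' (h c)
    · exact congrArg some (AddChar.to_mulShift_inj_of_isPrimitive hψ₀ ho')
  have hle := ((linearIndependent_monoidHom (Multiplicative F) Cp).comp _
    hinj).fintype_card_le_finrank
  rw [Fintype.card_option, Module.finrank_fintype_fun_eq_card, Fintype.card_multiplicative] at hle
  omega

theorem orderOf_ringHomComp {S T : Type*} [CommRing S] [CommRing T] (g : S →+* T)
    (hg : Function.Injective g) (θ : MulChar F S) : orderOf (θ.ringHomComp g) = orderOf θ :=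
  orderOf_injective (MulChar.ringHomCompHom g) (MulChar.injective_ringHomComp hg) θ

/-- **The product relation in `ℂ_p`.** -/
theorem gaussSum_product_padic [Algebra (ZMod p) F] (χ η : MulChar F ℂ_[p]) {ψ : AddChar F ℂ_[p]}
    (hψ : ψ ≠ 1) :
    χ (orderOf η : F) ^ orderOf η * ∏ j ∈ range (orderOf η), gaussSum (χ * η ^ j) ψ =
      gaussSum (χ ^ orderOf η) ψ * ∏ j ∈ Ico 1 (orderOf η), gaussSum (η ^ j) ψ := by
  obtain ⟨ω, hω⟩ := FA.Summary.exists_teichmuller_mulChar (p := p) F
  obtain ⟨⟨f, hf0⟩, -, hcard⟩ := @FiniteField.card F _ _ p (charP_of_injective_algebraMap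
    (algebraMap (ZMod p) F).injective p)
  simp only [PNat.mk_coe] at hcard
  have hf : f ≠ 0 := by omega
  obtain ⟨hordω, hall⟩ := exists_eq_omega_inv_pow hω
  obtain ⟨k, hk⟩ := MulChar.orderOf_dvd_card_sub_one F η
  have hmpos : 0 < orderOf η := η.orderOf_pos
  generalize hm : orderOf η = m at hk hmpos ⊢
  have hN : p ^ f - 1 = m * k := hcard ▸ hk
  rw [Fintype.card_units, hcard, hN] at hordω
  have hpos := sub_one_pos hf hN
  have hkpos : 0 < k := Nat.pos_of_mul_pos_left hpos
  -- the powers of `η`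
  obtain ⟨b, hb⟩ := hall η
  obtain ⟨t, ht⟩ : k ∣ b := by
    have h1 : ω⁻¹ ^ (b * m) = 1 := by rw [pow_mul, ← hb, ← hm, pow_orderOf_eq_one]
    have h2 := orderOf_dvd_of_pow_eq_one h1
    rw [hordω, mul_comm m] at h2
    exact Nat.dvd_of_mul_dvd_mul_right hmpos h2
  have hset : (range m).image (fun j => η ^ j) = (range m).image (fun j => ω⁻¹ ^ (j * k)) := by
    refine eq_of_subset_of_card_le (fun θ hθ => ?_) ?_
    · obtain ⟨j, -, rfl⟩ := mem_image.1 hθ
      refine mem_image.2 ⟨t * j % m, mem_range.2 (Nat.mod_lt _ hmpos), ?_⟩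
      rw [hb, ht, ← pow_mul, mul_comm (t * j % m), pow_mul, mul_assoc, pow_mul ω⁻¹ k (t * j)]
      exact (pow_eq_pow_mod _ (by rw [← pow_mul, mul_comm k, ← hordω, pow_orderOf_eq_one])).symm
    · exact card_image_le.trans_eq (card_image_of_injOn fun i hi j hj h =>
        pow_injOn_Iio_orderOf (x := η) (by simpa [hm] using hi) (by simpa [hm] using hj) h).symm
  have hswap : ∀ Φ : MulChar F Cp → Cp,
      ∏ j ∈ range m, Φ (η ^ j) = ∏ j ∈ range m, Φ (ω⁻¹ ^ (j * k)) := fun Φ => by
    rw [← prod_image (fun i hi j hj h => pow_injOn_Iio_orderOf (x := η)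
      (by simpa [hm] using hi) (by simpa [hm] using hj) h), hset, prod_image]
    intro i hi j hj h
    refine Nat.eq_of_mul_eq_mul_right hkpos (pow_injOn_Iio_orderOf (x := ω⁻¹) ?_ ?_ h) <;>
      simpa [hordω] using Nat.mul_lt_mul_of_pos_right (mem_range.1 ‹_›) hkpos
  -- the character of Dwork
  set ψ₀ := traceChar (p := p) F
  have hψ₀ : ψ₀.IsPrimitive := AddChar.IsPrimitive.of_ne_one (traceChar_ne_one (p := p) (F := F))
  have hmF : ω (m : F) ≠ 0 := by
    obtain ⟨h1, -⟩ := omega_natCast hf hN F ω hω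
    intro h
    rw [h, zero_pow (by have := hp.out.one_lt; omega)] at h1
    exact zero_ne_one h1
  obtain ⟨a, rfl⟩ := hall χ
  have key : (ω⁻¹ ^ a) (m : F) ^ m * ∏ j ∈ range m, gaussSum (ω⁻¹ ^ a * η ^ j) ψ₀ =
      gaussSum ((ω⁻¹ ^ a) ^ m) ψ₀ * ∏ j ∈ Ico 1 m, gaussSum (η ^ j) ψ₀ := by
    have h := gaussSum_product_omega hf hN F hcard ω hω a
    simp only [pow_add] at h
    rw [← hswap fun θ => -gaussSum (ω⁻¹ ^ a * θ) ψ₀, ← hswap fun θ => -gaussSum θ ψ₀,
      prod_neg, prod_neg, card_range] at h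
    have e1 : ∏ j ∈ range m, gaussSum (η ^ j) ψ₀ = -∏ j ∈ Ico 1 m, gaussSum (η ^ j) ψ₀ := by
      rw [range_eq_Ico, prod_eq_prod_Ico_succ_bot hmpos, pow_zero,
        gaussSum_one_left (traceChar_ne_one (p := p) (F := F)), zero_add, neg_one_mul]
    rw [e1] at h
    have hu : IsUnit (m : F) := by
      rw [isUnit_iff_ne_zero]
      exact fun h' => hmF (by rw [h', MulChar.map_zero])
    obtain ⟨u, hu⟩ := hu
    rw [← hu] at h hmF ⊢
    rw [MulChar.pow_apply_coe, MulChar.inv_apply_eq_inv', ← pow_mul, inv_pow, mul_comm a m,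
      ← pow_mul, mul_comm a m]
    have hne : ω (u : F) ^ (m * a) ≠ 0 := pow_ne_zero _ hmF
    have hs : (-1 : Cp) ^ m ≠ 0 := pow_ne_zero _ (neg_ne_zero.2 one_ne_zero)
    have h2 : ∏ j ∈ range m, gaussSum (ω⁻¹ ^ a * η ^ j) ψ₀ = ω (u : F) ^ (m * a) *
        gaussSum (ω⁻¹ ^ (m * a)) ψ₀ * ∏ j ∈ Ico 1 m, gaussSum (η ^ j) ψ₀ :=
      mul_left_cancel₀ hs (by linear_combination h)
    rw [h2]
    field_simp
  -- an arbitrary additive character
  obtain ⟨c, rfl⟩ := exists_eq_mulShift hψ₀ ψ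
  have hc : c ≠ 0 := fun h => hψ (by rw [h, AddChar.mulShift_zero])
  obtain ⟨u, rfl⟩ := (isUnit_iff_ne_zero.2 hc)
  simp only [gaussSum_mulShift_eq, prod_mul_distrib]
  have e : ∏ j ∈ range m, (ω⁻¹ ^ a * η ^ j)⁻¹ (u : F) =
      ((ω⁻¹ ^ a) ^ m)⁻¹ (u : F) * ∏ j ∈ Ico 1 m, (η ^ j)⁻¹ (u : F) := by
    have e2 : ∏ j ∈ range m, (η ^ j)⁻¹ (u : F) = ∏ j ∈ Ico 1 m, (η ^ j)⁻¹ (u : F) := by
      rw [range_eq_Ico, prod_eq_prod_Ico_succ_bot hmpos, pow_zero, inv_one,
        MulChar.one_apply_coe, one_mul]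
    have e3 := prod_const (s := range m) ((ω⁻¹ ^ a)⁻¹ (u : F))
    rw [card_range] at e3
    rw [← inv_pow (ω⁻¹ ^ a), MulChar.pow_apply_coe, ← e2, ← e3, ← prod_mul_distrib]
    exact prod_congr rfl fun j _ => by rw [mul_inv, MulChar.mul_apply]
  rw [e]
  linear_combination (((ω⁻¹ ^ a) ^ m)⁻¹ (u : F) * ∏ j ∈ Ico 1 m, (η ^ j)⁻¹ (u : F)) * key

/-- **The product relation of Davenport and Hasse.** -/
theorem gaussSum_product {R : Type*} [Field R] [CharZero R] (χ η : MulChar F R) {ψ : AddChar F R}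
    (hψ : ψ ≠ 1) :
    χ (orderOf η : F) ^ orderOf η * ∏ j ∈ range (orderOf η), gaussSum (χ * η ^ j) ψ =
      gaussSum (χ ^ orderOf η) ψ * ∏ j ∈ Ico 1 (orderOf η), gaussSum (η ^ j) ψ := by
  obtain ⟨p, hchar⟩ := CharP.exists F
  have : Fact p.Prime := ⟨CharP.char_is_prime F p⟩
  let := ZMod.algebra F p
  have hp0 := (Fact.out : p.Prime).ne_zero
  set N := p * Fintype.card Fˣ with hN
  have hN0 : N ≠ 0 := mul_ne_zero hp0 Fintype.card_ne_zero
  set S := IntermediateField.adjoin ℚ {x : R | x ^ N = 1}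
  have : Algebra.IsAlgebraic ℚ S := IntermediateField.isAlgebraic_adjoin fun x hx =>
    IsIntegral.of_pow (Nat.pos_of_ne_zero hN0) (by rw [show x ^ N = 1 from hx]; exact isIntegral_one)
  let τ : S →ₐ[ℚ] ℂ_[p] := IsAlgClosed.lift
  have hunit : ∀ (θ : MulChar F R) (x : F), θ x ∈ S := fun θ x => by
    rcases eq_or_ne x 0 with rfl | hx
    · rw [MulChar.map_zero]
      exact zero_mem S
    · refine IntermediateField.subset_adjoin ℚ _ ?_
      show θ x ^ N = 1
      rw [← map_pow, hN, mul_comm, pow_mul, Fintype.card_units,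
        FiniteField.pow_card_sub_one_eq_one x hx, one_pow, MulChar.map_one]
  have hadd : ∀ x : F, ψ x ∈ S := fun x => by
    refine IntermediateField.subset_adjoin ℚ _ ?_
    show ψ x ^ N = 1
    rw [hN, pow_mul, ← AddChar.map_nsmul_eq_pow, nsmul_eq_mul, CharP.cast_eq_zero, zero_mul,
      AddChar.map_zero_eq_one, one_pow]
  let res : MulChar F R → MulChar F S := fun θ =>
    { toFun := fun x => ⟨θ x, hunit θ x⟩
      map_one' := Subtype.ext (MulChar.map_one θ)
      map_mul' := fun x y => Subtype.ext (map_mul θ x y)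
      map_nonunit' := fun x hx => Subtype.ext (θ.map_nonunit hx) }
  have hres : ∀ θ, (res θ).ringHomComp S.val.toRingHom = θ := fun θ => MulChar.ext fun x => rfl
  let ψ' : AddChar F S :=
    { toFun := fun x => ⟨ψ x, hadd x⟩
      map_zero_eq_one' := Subtype.ext (AddChar.map_zero_eq_one ψ)
      map_add_eq_mul' := fun x y => Subtype.ext (AddChar.map_add_eq_mul ψ x y) }
  have hι : Function.Injective S.val.toRingHom := S.val.injective
  have hτψ : τ.toRingHom.toMonoidHom.compAddChar ψ' ≠ 1 := fun h => hψ (DFunLike.ext _ _ fun x => by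
    have h1 := DFunLike.congr_fun h x
    rw [MonoidHom.compAddChar_apply, AddChar.one_apply] at h1
    have h2 : ψ' x = 1 := τ.toRingHom.injective (h1.trans (map_one _).symm)
    exact congrArg Subtype.val h2)
  have h := gaussSum_product_padic ((res χ).ringHomComp τ.toRingHom)
    ((res η).ringHomComp τ.toRingHom) hτψ
  rw [orderOf_ringHomComp _ τ.toRingHom.injective] at h
  have hη : orderOf (res η) = orderOf η := by
    conv_rhs => rw [← hres η, orderOf_ringHomComp _ hι]
  rw [hη] at h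
  simp only [MulChar.ringHomComp_pow, ← MulChar.ringHomComp_mul, gaussSum_map,
    MulChar.ringHomComp_apply, ← map_pow, ← map_prod, ← map_mul] at h
  have h' := congrArg S.val.toRingHom (τ.toRingHom.injective h)
  have hψ' : S.val.toRingHom.toMonoidHom.compAddChar ψ' = ψ := DFunLike.ext _ _ fun x => rfl
  simp only [map_mul, map_pow, map_prod, ← gaussSum_map, MulChar.ringHomComp_mul,
    ← MulChar.ringHomComp_pow, hres, hψ', ← MulChar.ringHomComp_apply (res χ)] at h'
  exact h'

end Fermat.Agent.GaussProduct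

end
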