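import Fermat.Agent.GrossKoblitz.Main
import Mathlib.NumberTheory.Padics.AddChar

/-!
# Gauss's multiplication formula for Morita's Gamma function

For `p ∤ m` the ratio of the two sides changes from `x` to `x + 1` by `1 / m` off the multiples of
`p` and not at all at them; so at `n = p z - d` it is `m ^ d / (m ^ (p - 1)) ^ z`, and this is
continuous because `m ^ (p - 1)` is `1` modulo `p`.
-/

set_option autoImplicit false

noncomputable section

open Finset Filter Topology FA.DworkRationality FA.GrossKoblitz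
open scoped Classical

namespace Fermat.Agent.GaussProduct

variable {p : ℕ} [hp : Fact p.Prime] {m : ℕ}

local notation "Cp" => ℂ_[p]

/-- `(x + l) / m`. -/
def shiftDiv (m : ℕ) (x : ℤ_[p]) (l : ℕ) : ℤ_[p] := (x + (l : ℤ_[p])) * Ring.inverse (m : ℤ_[p])

theorem isUnit_natCast (hm : ¬ p ∣ m) : IsUnit (m : ℤ_[p]) := by
  rw [PadicInt.isUnit_iff, PadicInt.norm_natCast_eq_one_iff, Nat.Prime.coprime_iff_not_dvd hp.out]
  exact hm

theorem mul_shiftDiv (hm : ¬ p ∣ m) (x : ℤ_[p]) (l : ℕ) :
    (m : ℤ_[p]) * shiftDiv m x l = x + (l : ℤ_[p]) := by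
  rw [shiftDiv, mul_left_comm, Ring.mul_inverse_cancel _ (isUnit_natCast hm), mul_one]

/-- The left side of the multiplication formula. -/
def gammaProd (m : ℕ) (x : ℤ_[p]) : Cp := ∏ l ∈ range m, padicGamma p (shiftDiv m x l)

theorem padicGamma_ne_zero (x : ℤ_[p]) : padicGamma p x ≠ 0 := fun h => by
  simpa [h] using norm_padicGamma (p := p) x

theorem continuous_gammaProd : Continuous (gammaProd (p := p) m) :=
  continuous_finsetProd _ fun l _ => continuous_padicGamma.comp
    ((continuous_add_const (l : ℤ_[p])).mul continuous_const)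

theorem gammaProd_add_one (hm : ¬ p ∣ m) (x : ℤ_[p]) :
    (gammaProd m (x + 1)) * padicGamma p x * (if (p : ℤ_[p]) ∣ x then 1 else (m : Cp)) =
      gammaProd m x * padicGamma p (x + 1) := by
  have hm0 : 0 < m := Nat.pos_of_ne_zero fun h => hm (h ▸ dvd_zero p)
  obtain ⟨r, hr⟩ : ∃ r, m = r + 1 := ⟨m - 1, by omega⟩
  have hinv : (m : ℤ_[p]) * Ring.inverse (m : ℤ_[p]) = 1 :=
    Ring.mul_inverse_cancel _ (isUnit_natCast hm)
  have h1 : gammaProd m (x + 1) =
      (∏ l ∈ range r, padicGamma p (shiftDiv m x (l + 1))) *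
        padicGamma p (shiftDiv m x 0 + 1) := by
    rw [gammaProd]
    conv_lhs => rw [hr]
    rw [prod_range_succ]
    refine congrArg₂ _ (prod_congr rfl fun l _ => congrArg _ ?_) (congrArg _ ?_)
    · rw [shiftDiv, shiftDiv, ← hr]
      push_cast
      ring
    · rw [shiftDiv, shiftDiv, ← hr]
      have e : (m : ℤ_[p]) = (r : ℤ_[p]) + 1 := by rw [hr]; push_cast; rfl
      rw [Nat.cast_zero, add_zero, add_assoc, show (1 : ℤ_[p]) + r = m by rw [e]; ring, add_mul,
        hinv]
  have h2 : gammaProd m x = (∏ l ∈ range r, padicGamma p (shiftDiv m x (l + 1))) *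
      padicGamma p (shiftDiv m x 0) := by
    rw [gammaProd]
    conv_lhs => rw [hr]
    rw [prod_range_succ']
    simp only [← hr]
  set t := shiftDiv m x 0
  have htx : (m : ℤ_[p]) * t = x := by
    rw [mul_shiftDiv hm, Nat.cast_zero, add_zero]
  have hdvd : (p : ℤ_[p]) ∣ t ↔ (p : ℤ_[p]) ∣ x := by
    rw [← htx, IsUnit.dvd_mul_left (isUnit_natCast hm)]
  rw [h1, h2]
  by_cases hx : (p : ℤ_[p]) ∣ x
  · rw [if_pos hx, padicGamma_add_one_of_dvd hx, padicGamma_add_one_of_dvd (hdvd.2 hx)]
    ring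
  · rw [if_neg hx, padicGamma_add_one_of_not_dvd hx,
      padicGamma_add_one_of_not_dvd (mt hdvd.1 hx)]
    have : toCp p x = (m : Cp) * toCp p t := by rw [← htx, map_mul, map_natCast]
    rw [this]
    ring

theorem prime_dvd_natCast_pow_sub_one (hm : ¬ p ∣ m) :
    (p : ℤ_[p]) ∣ (m : ℤ_[p]) ^ (p - 1) - 1 := by
  rw [← toZMod_eq_zero_iff, map_sub, map_pow, map_natCast, map_one, sub_eq_zero]
  refine ZMod.pow_card_sub_one_eq_one ?_
  rwa [Ne, ZMod.natCast_eq_zero_iff]

variable (p m) in
/-- The base: `1 / m ^ (p - 1) - 1`. -/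
def stepBase : ℤ_[p] := Ring.inverse ((m : ℤ_[p]) ^ (p - 1)) - 1

theorem norm_stepBase_lt (hm : ¬ p ∣ m) : ‖stepBase p m‖ < 1 := by
  rw [PadicInt.norm_lt_one_iff_dvd]
  have e : stepBase p m =
      -((m : ℤ_[p]) ^ (p - 1) - 1) * Ring.inverse ((m : ℤ_[p]) ^ (p - 1)) := by
    rw [stepBase, neg_mul, sub_mul, Ring.mul_inverse_cancel _ ((isUnit_natCast hm).pow _), one_mul,
      neg_sub]
  rw [e]
  exact dvd_mul_of_dvd_left ((dvd_neg).2 (prime_dvd_natCast_pow_sub_one hm)) _

/-- `z ↦ (m ^ (p - 1)) ^ (-z)`. -/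
def stepChar (hm : ¬ p ∣ m) : AddChar ℤ_[p] ℤ_[p] :=
  PadicInt.addChar_of_value_at_one (stepBase p m)
    (tendsto_pow_atTop_nhds_zero_of_norm_lt_one (norm_stepBase_lt hm))

theorem continuous_stepChar (hm : ¬ p ∣ m) : Continuous (stepChar (p := p) hm) :=
  PadicInt.continuous_addChar_of_value_at_one _

theorem stepChar_natCast (hm : ¬ p ∣ m) (n : ℕ) :
    stepChar hm (n : ℤ_[p]) * ((m : ℤ_[p]) ^ (p - 1)) ^ n = 1 := by
  induction n with
  | zero => simp
  | succ n ih =>
    rw [Nat.cast_succ, AddChar.map_add_eq_mul, pow_succ,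
      mul_mul_mul_comm, ih, one_mul, stepChar, PadicInt.addChar_of_value_at_one_def, stepBase,
      add_sub_cancel, Ring.inverse_mul_cancel _ ((isUnit_natCast hm).pow _)]

/-- The factor `m ^ d E z` at `x = p z - d`. -/
def gammaFactor (hm : ¬ p ∣ m) (x : ℤ_[p]) : Cp :=
  (m : Cp) ^ gammaDigit x * toCp p (stepChar hm (gammaQuot x))

theorem gammaFactor_mul_sub (hm : ¬ p ∣ m) {a : ℕ} (ha : a < p) (z : ℤ_[p]) :
    gammaFactor hm ((p : ℤ_[p]) * z - (a : ℤ_[p])) =
      (m : Cp) ^ a * toCp p (stepChar hm z) := by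
  have h := gammaQuot_spec ((p : ℤ_[p]) * z - (a : ℤ_[p]))
  rw [gammaDigit_mul_sub ha, sub_add_cancel] at h
  rw [gammaFactor, gammaDigit_mul_sub ha, mul_left_cancel₀ padicInt_prime_ne_zero h]

/-- **Gauss's multiplication formula.** -/
theorem gammaProd_eq (hm : ¬ p ∣ m) (x : ℤ_[p]) :
    gammaProd m x = gammaFactor hm x * padicGamma p x * gammaProd m 0 := by
  obtain ⟨a, z, ha, rfl⟩ := exists_eq_mul_sub x
  rw [gammaFactor_mul_sub hm ha]
  have hc : IsClosed {z : ℤ_[p] | gammaProd m ((p : ℤ_[p]) * z - (a : ℤ_[p])) =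
      (m : Cp) ^ a * toCp p (stepChar hm z) * padicGamma p ((p : ℤ_[p]) * z - (a : ℤ_[p])) *
        gammaProd m 0} := by
    have haff : Continuous fun z : ℤ_[p] => (p : ℤ_[p]) * z - (a : ℤ_[p]) := by fun_prop
    exact isClosed_eq (continuous_gammaProd.comp haff)
      (((continuous_const.mul (continuous_toCp.comp (continuous_stepChar hm))).mul
        (continuous_padicGamma.comp haff)).mul continuous_const)
  refine PadicInt.denseRange_natCast.induction_on z hc fun n => ?_
  -- at the natural numbers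
  have hnat : ∀ j : ℕ, gammaProd m (j : ℤ_[p]) *
      (m : Cp) ^ ((range j).filter fun i => ¬ p ∣ i).card =
        padicGamma p (j : ℤ_[p]) * gammaProd m 0 := by
    intro j
    induction j with
    | zero => simp [padicGamma_zero]
    | succ j ih =>
      have hiff : (p : ℤ_[p]) ∣ (j : ℤ_[p]) ↔ p ∣ j := by
        rw [← toZMod_eq_zero_iff, map_natCast, ZMod.natCast_eq_zero_iff]
      have h := gammaProd_add_one hm (j : ℤ_[p])
      simp only [hiff] at h
      rw [Nat.cast_succ]
      refine mul_right_cancel₀ (padicGamma_ne_zero (j : ℤ_[p])) ?_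
      rw [range_add_one, filter_insert]
      by_cases hd : p ∣ j
      · rw [if_pos hd] at h
        rw [if_neg (not_not.2 hd)]
        linear_combination ((m : Cp) ^ ((range j).filter fun i => ¬ p ∣ i).card) * h +
          padicGamma p ((j : ℤ_[p]) + 1) * ih
      · rw [if_neg hd] at h
        rw [if_pos hd, card_insert_of_notMem (by simp), pow_succ]
        linear_combination ((m : Cp) ^ ((range j).filter fun i => ¬ p ∣ i).card) * h +
          padicGamma p ((j : ℤ_[p]) + 1) * ih
  have hmCp : (m : Cp) ≠ 0 := Nat.cast_ne_zero.2 fun h => hm (h ▸ dvd_zero p)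
  rcases Nat.eq_zero_or_pos n with rfl | hn
  · rw [Nat.cast_zero, mul_zero, zero_sub]
    -- negative integers `-a`, by the functional equation
    have hneg : ∀ b : ℕ, b < p → gammaProd m (-(b : ℤ_[p])) =
        (m : Cp) ^ b * padicGamma p (-(b : ℤ_[p])) * gammaProd m 0 := by
      intro b
      induction b with
      | zero => intro _; simp [padicGamma_zero]
      | succ b ih =>
        intro hb
        have hnd : ¬ (p : ℤ_[p]) ∣ -((b + 1 : ℕ) : ℤ_[p]) := by
          rw [dvd_neg, ← toZMod_eq_zero_iff, map_natCast, ZMod.natCast_eq_zero_iff]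
          exact Nat.not_dvd_of_pos_of_lt b.succ_pos hb
        have h := gammaProd_add_one hm (-((b + 1 : ℕ) : ℤ_[p]))
        rw [if_neg hnd, show -((b + 1 : ℕ) : ℤ_[p]) + 1 = -(b : ℤ_[p]) by push_cast; ring,
          ih (by omega)] at h
        refine mul_right_cancel₀ (padicGamma_ne_zero (-(b : ℤ_[p]))) ?_
        rw [← h, pow_succ]
        ring
    rw [AddChar.map_zero_eq_one, map_one, mul_one]
    exact hneg a ha
  · obtain ⟨j, hj⟩ : ∃ j : ℕ, p * n = j + a := ⟨p * n - a, by
      have : p ≤ p * n := Nat.le_mul_of_pos_right p hn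
      omega⟩
    rw [show (p : ℤ_[p]) * (n : ℤ_[p]) - (a : ℤ_[p]) = (j : ℤ_[p]) by
      rw [sub_eq_iff_eq_add]; exact_mod_cast hj]
    have hcount : ((range j).filter fun i => ¬ p ∣ i).card + a = (p - 1) * n := by
      have hp1 := hp.out.one_lt
      have hmul : ((range j).filter fun i => p ∣ i).card = n := by
        have e : (range j).filter (fun i => p ∣ i) = (range n).image (p * ·) := by
          ext i
          simp only [mem_filter, mem_range, mem_image]
          constructor
          · rintro ⟨hi, c, rfl⟩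
            exact ⟨c, Nat.lt_of_mul_lt_mul_left (a := p) (by omega), rfl⟩
          · rintro ⟨c, hc, rfl⟩
            refine ⟨?_, dvd_mul_right p c⟩
            have : p * c + p ≤ p * n := by rw [← Nat.mul_succ]; exact Nat.mul_le_mul_left p hc
            omega
        rw [e, card_image_of_injective _ (mul_right_injective₀ hp.out.ne_zero), card_range]
      have htot := card_filter_add_card_filter_not (s := range j) (fun i => p ∣ i)
      rw [hmul, card_range] at htot
      rw [Nat.sub_mul, one_mul]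
      omega
    have hE : toCp p (stepChar hm (n : ℤ_[p])) * ((m : Cp) ^ (p - 1)) ^ n = 1 := by
      have := congrArg (toCp p) (stepChar_natCast hm n)
      rwa [map_mul, map_pow, map_pow, map_natCast (toCp p) m, map_one] at this
    rw [← pow_mul, ← hcount, pow_add] at hE
    refine mul_right_cancel₀
      (pow_ne_zero ((range j).filter fun i => ¬ p ∣ i).card hmCp) ?_
    linear_combination hnat j - padicGamma p (j : ℤ_[p]) * gammaProd m 0 * hE

theorem gammaFactor_mul_pow_sub_one (hm : ¬ p ∣ m) (x : ℤ_[p]) :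
    ‖gammaFactor hm x - (m : Cp) ^ gammaDigit x‖ < 1 := by
  have h1 : ∀ z : ℤ_[p], (p : ℤ_[p]) ∣ stepChar hm z - 1 := fun z => by
    have hcl : IsClosed {z : ℤ_[p] | (p : ℤ_[p]) ∣ stepChar hm z - 1} := by
      simp only [← PadicInt.norm_lt_one_iff_dvd]
      have h := (IsUltrametricDist.isClosed_ball (1 : ℤ_[p]) 1).preimage (continuous_stepChar hm)
      simpa [Set.preimage, dist_eq_norm] using h
    refine PadicInt.denseRange_natCast.induction_on z hcl fun n => ?_
    have h := stepChar_natCast hm n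
    have hd : (p : ℤ_[p]) ∣ ((m : ℤ_[p]) ^ (p - 1)) ^ n - 1 :=
      (prime_dvd_natCast_pow_sub_one hm).trans (sub_one_dvd_pow_sub_one _ n)
    rw [show stepChar hm (n : ℤ_[p]) - 1 =
      -(stepChar hm (n : ℤ_[p]) * (((m : ℤ_[p]) ^ (p - 1)) ^ n - 1)) by rw [mul_sub, h]; ring]
    exact (dvd_mul_of_dvd_right hd _).neg_right
  rw [gammaFactor, ← mul_sub_one, ← map_natCast (toCp p), ← map_pow, ← map_one (toCp p), ← map_sub,
    ← map_mul, norm_toCp, PadicInt.norm_lt_one_iff_dvd]
  exact dvd_mul_of_dvd_right (h1 _) _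

end Fermat.Agent.GaussProduct

end
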