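import Fermat.Agent.GaussProduct.Gamma
import Mathlib.Data.Nat.Digits.Div

/-!
# The product relation for the powers of the Teichmüller character

In the formula of Gross and Koblitz the arguments for `a + j (q - 1) / m`, `j < m`, are the
`(x + l) / m`, `l < m`, where `x` runs through those for `m a`; the multiplication formula leaves a
factor whose `(p - 1)`-st power is `1` and whose residue is a power of `m`.
-/

set_option autoImplicit false
set_option linter.unusedSectionVars false

noncomputable section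

open Finset FA.DworkRationality FA.GrossKoblitz
open scoped Classical

namespace Fermat.Agent.GaussProduct

variable {p : ℕ} [hp : Fact p.Prime] {f m k : ℕ}

local notation "Cp" => ℂ_[p]

theorem prod_reflect_periodic {M : Type*} [CommMonoid M] (F : ℕ → M) {f : ℕ} (h : F f = F 0) :
    ∏ i ∈ range f, F (f - i) = ∏ i ∈ range f, F i := by
  cases f with
  | zero => simp
  | succ r =>
    rw [prod_range_succ' (fun i => F i), ← h, prod_range_succ' (fun i => F (r + 1 - i)),
      Nat.sub_zero, ← prod_range_reflect (fun i => F (i + 1)) r]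
    exact congrArg (· * _) (prod_congr rfl fun i hi => congrArg F (by
      have := mem_range.1 hi
      omega))

variable (hf : f ≠ 0) (hN : p ^ f - 1 = m * k)
include hf hN

theorem sub_one_pos : 0 < m * k := by
  have := two_le_prime_pow (p := p) hf
  omega

theorem not_dvd_slot : ¬ p ∣ m := fun h => by
  have h1 : p ∣ p ^ f - 1 := hN ▸ h.mul_right k
  have h2 : p ∣ p ^ f := dvd_pow_self p hf
  have := Nat.dvd_sub h2 h1
  rw [Nat.sub_sub_self (Nat.one_le_pow f p hp.out.pos)] at this
  exact hp.out.one_lt.ne' (Nat.dvd_one.1 this)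

theorem coprime_base : Nat.Coprime p (m * k) := by
  rw [← hN]
  refine (Nat.Prime.coprime_iff_not_dvd hp.out).2 fun h1 => ?_
  have h2 : p ∣ p ^ f := dvd_pow_self p hf
  have := Nat.dvd_sub h2 h1
  rw [Nat.sub_sub_self (Nat.one_le_pow f p hp.out.pos)] at this
  exact hp.out.one_lt.ne' (Nat.dvd_one.1 this)

/-- The multiples at one rotation. -/
theorem image_residues (a i : ℕ) :
    (range m).image (fun j => (a + j * k) * p ^ i % (m * k)) =
        (range m).image (fun l => a * p ^ i % k + l * k) ∧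
      Set.InjOn (fun j => (a + j * k) * p ^ i % (m * k)) (range m) ∧
      Set.InjOn (fun l => a * p ^ i % k + l * k) (range m) := by
  have hpos := sub_one_pos hf hN
  have hk : 0 < k := Nat.pos_of_mul_pos_left hpos
  have hinj1 : Set.InjOn (fun j => (a + j * k) * p ^ i % (m * k)) (range m) := by
    intro j hj j' hj' h
    have h1 : a + j * k ≡ a + j' * k [MOD m * k] := by
      refine Nat.ModEq.cancel_right_of_coprime (c := p ^ i) ?_ h
      exact ((coprime_base hf hN).pow_left i).symm
    have h2 := Nat.ModEq.add_left_cancel' a h1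
    have h3 : j * k < m * k := Nat.mul_lt_mul_of_pos_right (mem_range.1 hj) hk
    have h4 : j' * k < m * k := Nat.mul_lt_mul_of_pos_right (mem_range.1 hj') hk
    exact Nat.eq_of_mul_eq_mul_right hk (by
      rwa [Nat.ModEq, Nat.mod_eq_of_lt h3, Nat.mod_eq_of_lt h4] at h2)
  have hinj2 : Set.InjOn (fun l => a * p ^ i % k + l * k) (range m) := fun l _ l' _ h =>
    Nat.eq_of_mul_eq_mul_right hk (Nat.add_left_cancel h)
  refine ⟨eq_of_subset_of_card_le (fun r hr => ?_) ?_, hinj1, hinj2⟩
  · obtain ⟨j, -, rfl⟩ := mem_image.1 hr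
    refine mem_image.2 ⟨(a + j * k) * p ^ i % (m * k) / k, mem_range.2 ?_, ?_⟩
    · exact Nat.div_lt_of_lt_mul (by rw [mul_comm k]; exact Nat.mod_lt _ hpos)
    · have e : (a + j * k) * p ^ i % (m * k) % k = a * p ^ i % k := by
        rw [Nat.mod_mul_left_mod, add_mul, mul_right_comm j k, Nat.add_mul_mod_self_right]
      conv_rhs => rw [← Nat.mod_add_div ((a + j * k) * p ^ i % (m * k)) k, e]
      rw [mul_comm k]
  · rw [card_image_of_injOn hinj1, card_image_of_injOn hinj2]

theorem image_sum {M : Type*} [AddCommMonoid M] (φ : ℕ → M) (a i : ℕ) :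
    ∑ j ∈ range m, φ ((a + j * k) * p ^ i % (m * k)) =
      ∑ l ∈ range m, φ (a * p ^ i % k + l * k) := by
  obtain ⟨he, h1, h2⟩ := image_residues hf hN a i
  rw [← sum_image h1, he, sum_image h2]

theorem image_prod {M : Type*} [CommMonoid M] (φ : ℕ → M) (a i : ℕ) :
    ∏ j ∈ range m, φ ((a + j * k) * p ^ i % (m * k)) =
      ∏ l ∈ range m, φ (a * p ^ i % k + l * k) :=
  image_sum (M := Additive M) hf hN φ a i

theorem mul_residue (a i : ℕ) :
    m * a % (m * k) * p ^ i % (m * k) = m * (a * p ^ i % k) := by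
  rw [Nat.mod_mul_mod, mul_assoc, Nat.mul_mod_mul_left]

theorem digit_sum_mul {b : ℕ} (hb : b < m * k) :
    (p - 1) * ∑ i ∈ range f, b * p ^ i % (m * k) = m * k * ∑ i ∈ range f, b / p ^ i % p := by
  have hb' : b < p ^ f - 1 := by omega
  have hq : p ^ f = m * k + 1 := by
    have := two_le_prime_pow (p := p) hf
    omega
  have hrot : ∀ i, i ≤ f → rotateDigits p f b i = b * p ^ (f - i) % (m * k) := fun i hi => by
    rw [← hN, rotateDigits_eq_mod hp.out.two_le hb' hi]
  have hstep : ∀ i < f, rotateDigits p f b i + m * k * (b / p ^ i % p) =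
      p * rotateDigits p f b (i + 1) := fun i hi => by
    have h := rotateDigits_succ (p := p) (f := f) (a := b) hi
    rw [hq, mul_add, mul_one] at h
    rw [mul_comm (m * k)]
    omega
  have hshift : ∑ i ∈ range f, rotateDigits p f b (i + 1) =
      ∑ i ∈ range f, rotateDigits p f b i := by
    have h1 := sum_range_succ' (fun i => rotateDigits p f b i) f
    rw [sum_range_succ, rotateDigits_self hp.out.one_le hb', rotateDigits_zero] at h1
    omega
  have hres : ∑ i ∈ range f, rotateDigits p f b i = ∑ i ∈ range f, b * p ^ i % (m * k) := by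
    rw [sum_congr rfl fun i hi => hrot i (mem_range.1 hi).le]
    refine prod_reflect_periodic (M := Multiplicative ℕ) (fun i => b * p ^ i % (m * k)) ?_
    show b * p ^ f % (m * k) = b * p ^ 0 % (m * k)
    rw [hq, pow_zero, mul_one, mul_add, mul_one, add_comm, Nat.add_mul_mod_self_right]
  have h := sum_congr rfl fun i hi => hstep i (mem_range.1 hi)
  rw [sum_add_distrib, ← mul_sum, ← mul_sum, hshift, hres] at h
  rw [Nat.sub_mul, one_mul]
  omega

/-- The digit sums. -/
theorem digit_sum_relation (a : ℕ) :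
    (∑ j ∈ range m, ∑ i ∈ range f, (a + j * k) % (m * k) / p ^ i % p) =
      (∑ i ∈ range f, m * a % (m * k) / p ^ i % p) +
        ∑ j ∈ range m, ∑ i ∈ range f, j * k / p ^ i % p := by
  have hpos := sub_one_pos hf hN
  have hk : 0 < k := Nat.pos_of_mul_pos_left hpos
  refine Nat.eq_of_mul_eq_mul_left hpos ?_
  have hpush : ∀ φ : ℕ → ℕ, (∀ j ∈ range m, φ j < m * k) →
      m * k * ∑ j ∈ range m, ∑ i ∈ range f, φ j / p ^ i % p =
        (p - 1) * ∑ i ∈ range f, ∑ j ∈ range m, φ j * p ^ i % (m * k) := fun φ hφ => by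
    rw [mul_sum, sum_congr rfl fun j hj => (digit_sum_mul hf hN (hφ j hj)).symm, ← mul_sum,
      sum_comm]
  rw [mul_add, ← digit_sum_mul hf hN (Nat.mod_lt _ hpos),
    hpush (fun j => (a + j * k) % (m * k)) (fun j _ => Nat.mod_lt _ hpos),
    hpush (fun j => j * k) (fun j hj => Nat.mul_lt_mul_of_pos_right (mem_range.1 hj) hk),
    ← mul_add, ← sum_add_distrib]
  simp only [Nat.mod_mul_mod]
  refine congrArg _ (sum_congr rfl fun i _ => ?_)
  have h1 := image_sum hf hN (fun r => r) a i
  have h2 := image_sum hf hN (fun r => r) 0 i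
  have e : m * a * p ^ i % (m * k) = m * (a * p ^ i % k) := by
    rw [mul_assoc, Nat.mul_mod_mul_left]
  simp only [zero_add, zero_mul, Nat.zero_mod] at h2
  rw [h1, h2, e, sum_add_distrib, sum_const, card_range, smul_eq_mul]

theorem fracPart_residue (a i l : ℕ) :
    shiftDiv m (fracPart p f (m * a % (m * k)) i) l =
      ((a * p ^ i % k + l * k : ℕ) : ℤ_[p]) * Ring.inverse (((p ^ f - 1 : ℕ) : ℤ_[p])) := by
  have hu := isUnit_pow_sub_one (p := p) hf
  have hm := not_dvd_slot hf hN
  refine (hu.mul (isUnit_natCast hm)).mul_left_cancel ?_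
  rw [mul_assoc, mul_shiftDiv hm, mul_add, sub_one_mul_fracPart hf, hN, mul_residue hf hN]
  rw [show ((m * k : ℕ) : ℤ_[p]) * (m : ℤ_[p]) *
      (((a * p ^ i % k + l * k : ℕ) : ℤ_[p]) * Ring.inverse ((m * k : ℕ) : ℤ_[p])) =
    (m : ℤ_[p]) * ((a * p ^ i % k + l * k : ℕ) : ℤ_[p]) *
      (((m * k : ℕ) : ℤ_[p]) * Ring.inverse ((m * k : ℕ) : ℤ_[p])) by ring,
    Ring.mul_inverse_cancel _ (hN ▸ hu)]
  push_cast
  ring

/-- The Gamma factors. -/
theorem prod_gamma_eq (a : ℕ) :
    ∏ j ∈ range m, ∏ i ∈ range f, padicGamma p (fracPart p f ((a + j * k) % (m * k)) i) =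
      ∏ i ∈ range f, gammaProd m (fracPart p f (m * a % (m * k)) i) := by
  rw [prod_comm]
  refine prod_congr rfl fun i _ => ?_
  rw [gammaProd, prod_congr rfl fun l _ => congrArg (padicGamma p) (fracPart_residue hf hN a i l)]
  simp only [fracPart, hN, Nat.mod_mul_mod]
  exact image_prod hf hN
    (fun r => padicGamma p ((r : ℤ_[p]) * Ring.inverse ((m * k : ℕ) : ℤ_[p]))) a i

/-- The factor left by the multiplication formula. -/
def leftFactor (b : ℕ) : Cp :=
  ∏ i ∈ range f, gammaFactor (not_dvd_slot hf hN) (fracPart p f b (f - i))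

theorem fracPart_rec {b : ℕ} (hb : b < m * k) {i : ℕ} (hi : i < f) :
    fracPart p f b (f - i) =
      (p : ℤ_[p]) * fracPart p f b (f - (i + 1)) - ((b / p ^ i % p : ℕ) : ℤ_[p]) := by
  have hb' : b < p ^ f - 1 := by omega
  refine (isUnit_pow_sub_one (p := p) hf).mul_left_cancel ?_
  rw [mul_sub, mul_left_comm, sub_one_mul_fracPart hf, sub_one_mul_fracPart hf,
    rotateDigits_eq_mod hp.out.two_le hb' hi.le,
    rotateDigits_eq_mod hp.out.two_le hb' (show i + 1 ≤ f from hi), eq_sub_iff_add_eq]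
  have h := rotateDigits_succ (p := p) (f := f) (a := b) hi
  have hq : p ^ f = p ^ f - 1 + 1 := by
    have := two_le_prime_pow (p := p) hf
    omega
  rw [hq, mul_add, mul_one] at h
  have h' : rotateDigits p f b i + (p ^ f - 1) * (b / p ^ i % p) =
      p * rotateDigits p f b (i + 1) := by
    rw [mul_comm (p ^ f - 1)]
    omega
  exact_mod_cast h'

theorem leftFactor_spec {b : ℕ} (hb : b < m * k) :
    leftFactor hf hN b ^ (p - 1) = 1 ∧
      ‖leftFactor hf hN b - (m : Cp) ^ ∑ i ∈ range f, b / p ^ i % p‖ < 1 := by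
  set hm := not_dvd_slot hf hN
  set S := ∑ i ∈ range f, b / p ^ i % p with hS
  have hdig : ∀ i, b / p ^ i % p < p := fun i => Nat.mod_lt _ hp.out.pos
  have e : ∀ i ∈ range f, gammaFactor hm (fracPart p f b (f - i)) =
      (m : Cp) ^ (b / p ^ i % p) * toCp p (stepChar hm (fracPart p f b (f - (i + 1)))) :=
    fun i hi => by
      rw [fracPart_rec hf hN hb (mem_range.1 hi), gammaFactor_mul_sub hm (hdig i)]
  constructor
  · have hsum : (p - 1) • ∑ i ∈ range f, fracPart p f b (f - (i + 1)) = (S : ℤ_[p]) := by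
      refine (isUnit_pow_sub_one (p := p) hf).mul_left_cancel ?_
      rw [mul_smul_comm, mul_sum, sum_congr rfl fun i _ => sub_one_mul_fracPart hf b _,
        nsmul_eq_mul, ← Nat.cast_sum, ← Nat.cast_mul, ← Nat.cast_mul, hN]
      refine congrArg _ (Eq.trans (congrArg _ ?_) (digit_sum_mul hf hN hb))
      rw [← sum_range_reflect (fun i => b * p ^ i % (m * k)) f]
      exact sum_congr rfl fun i hi => by
        have := mem_range.1 hi
        rw [show f - 1 - i = f - (i + 1) by omega]
    rw [leftFactor, prod_congr rfl e, prod_mul_distrib, prod_pow_eq_pow_sum, ← hS, ← map_prod,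
      ← map_natCast (toCp p) m, ← map_pow, ← map_mul, ← map_pow, ← map_one (toCp p)]
    refine congrArg _ ?_
    rw [mul_pow, show (∏ i ∈ range f, stepChar hm (fracPart p f b (f - (i + 1)))) =
      stepChar hm (∑ i ∈ range f, fracPart p f b (f - (i + 1))) from
        (map_prod (stepChar hm).toMonoidHom (fun i => Multiplicative.ofAdd
          (fracPart p f b (f - (i + 1)))) (range f)).symm, ← AddChar.map_nsmul_eq_pow, hsum,
      ← pow_mul, mul_comm S, pow_mul, mul_comm]
    exact stepChar_natCast hm S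
  · have key : ∀ (s : Finset ℕ) (u v : ℕ → Cp), (∀ i, ‖u i‖ ≤ 1) → (∀ i, ‖v i‖ ≤ 1) →
        (∀ i ∈ s, ‖u i - v i‖ < 1) → ‖∏ i ∈ s, u i - ∏ i ∈ s, v i‖ < 1 := by
      intro s u v hu hv h
      induction s using Finset.induction_on with
      | empty => simp
      | insert j s hj ih =>
        rw [prod_insert hj, prod_insert hj, show u j * ∏ i ∈ s, u i - v j * ∏ i ∈ s, v i =
          u j * (∏ i ∈ s, u i - ∏ i ∈ s, v i) + (u j - v j) * ∏ i ∈ s, v i by ring]
        refine (IsUltrametricDist.norm_add_le_max _ _).trans_lt (max_lt ?_ ?_) <;> rw [norm_mul]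
        · exact mul_lt_one_of_nonneg_of_lt_one_right (hu j) (norm_nonneg _)
            (ih fun i hi => h i (mem_insert_of_mem hi))
        · refine mul_lt_one_of_nonneg_of_lt_one_left (norm_nonneg _) (h j (mem_insert_self j s)) ?_
          rw [norm_prod]
          exact prod_le_one (fun i _ => norm_nonneg _) fun i _ => hv i
    have hnorm : ∀ d, ‖(m : Cp) ^ d‖ = 1 := fun d => by
      rw [norm_pow, norm_natCast_eq_one hm, one_pow]
    have hfac : ∀ x, ‖gammaFactor hm x‖ ≤ 1 := fun x => by
      rw [gammaFactor, norm_mul, hnorm, one_mul, norm_toCp]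
      exact PadicInt.norm_le_one _
    rw [leftFactor, hS, ← prod_pow_eq_pow_sum]
    refine key _ _ _ (fun i => hfac _) (fun i => (hnorm _).le) fun i hi => ?_
    have h := gammaFactor_mul_pow_sub_one hm (fracPart p f b (f - i))
    rwa [fracPart_rec hf hN hb (mem_range.1 hi), gammaDigit_mul_sub (hdig i),
      ← fracPart_rec hf hN hb (mem_range.1 hi)] at h

section Teichmuller

variable (F : Type*) [Field F] [Fintype F] [Algebra (ZMod p) F]

/-- The additive character of Dwork. -/
abbrev traceChar : AddChar F Cp :=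
  (AddChar.zmodChar p (dworkRoot_pow (p := p))).compAddMonoidHom
    (Algebra.trace (ZMod p) F).toAddMonoidHom

theorem omega_natCast (ω : MulChar F ℂ_[p])
    (hω : ∀ x y : F, ‖ω (x + y) - ω x - ω y‖ < 1) :
    ω (m : F) ^ (p - 1) = 1 ∧ ‖ω (m : F) - (m : Cp)‖ < 1 := by
  have hm := not_dvd_slot hf hN
  constructor
  · rw [← map_pow, ← map_natCast (algebraMap (ZMod p) F), ← map_pow,
      ZMod.pow_card_sub_one_eq_one (by rwa [Ne, ZMod.natCast_eq_zero_iff]), map_one,
      MulChar.map_one]
  · have h : ∀ n : ℕ, ‖ω (n : F) - (n : Cp)‖ < 1 := fun n => by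
      induction n with
      | zero => simp [MulChar.map_zero]
      | succ n ih =>
        rw [Nat.cast_succ, Nat.cast_succ]
        have h1 := hω (n : F) 1
        rw [MulChar.map_one] at h1
        rw [show ω ((n : F) + 1) - ((n : Cp) + 1) =
          (ω ((n : F) + 1) - ω (n : F) - 1) + (ω (n : F) - (n : Cp)) by ring]
        exact (IsUltrametricDist.norm_add_le_max _ _).trans_lt (max_lt h1 ih)
    exact h m

theorem leftFactor_eq (ω : MulChar F ℂ_[p])
    (hω : ∀ x y : F, ‖ω (x + y) - ω x - ω y‖ < 1) {b : ℕ} (hb : b < m * k) :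
    leftFactor hf hN b = ω (m : F) ^ b := by
  obtain ⟨h1, h2⟩ := leftFactor_spec hf hN hb
  obtain ⟨h3, h4⟩ := omega_natCast hf hN F ω hω
  have hp1 : 0 < p - 1 := by have := hp.out.one_lt; omega
  set S := ∑ i ∈ range f, b / p ^ i % p with hS
  have hSb : ω (m : F) ^ b = ω (m : F) ^ S := by
    have hmod : b ≡ S [MOD p - 1] := by
      rcases hp.out.eq_two_or_odd with h | h
      · rw [show p - 1 = 1 by omega]
        exact Nat.modEq_one
      · have hp3 : 3 ≤ p := by
          have := hp.out.two_le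
          omega
        rw [hS, sum_digits_eq hp.out.two_le (show b < p ^ f by omega)]
        refine Nat.modEq_digits_sum (p - 1) p ?_ b
        conv_lhs => rw [show p = 1 + (p - 1) by omega]
        rw [Nat.add_sub_cancel_left, Nat.add_mod_right, Nat.mod_eq_of_lt (show 1 < p - 1 by omega)]
    rw [pow_eq_pow_mod b h3, pow_eq_pow_mod S h3, hmod]
  rw [hSb]
  have hw0 : ω (m : F) ^ S ≠ 0 := pow_ne_zero _ fun h => by
    rw [h, zero_pow hp1.ne'] at h3
    exact zero_ne_one h3
  set u := leftFactor hf hN b / ω (m : F) ^ S with hu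
  have hu1 : u ^ (p - 1) = 1 := by
    rw [hu, div_pow, h1, pow_right_comm, h3, one_pow, div_one]
  have hnw : ‖ω (m : F)‖ = 1 :=
    (pow_eq_one_iff_of_nonneg (norm_nonneg _) hp1.ne').1 (by rw [← norm_pow, h3, norm_one])
  have hu2 : ‖u - 1‖ < 1 := by
    rw [hu, div_sub_one hw0, norm_div, norm_pow, hnw, one_pow, div_one,
      show leftFactor hf hN b - ω (m : F) ^ S =
        (leftFactor hf hN b - (m : Cp) ^ S) + ((m : Cp) ^ S - ω (m : F) ^ S) by ring]
    refine (IsUltrametricDist.norm_add_le_max _ _).trans_lt (max_lt h2 ?_)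
    rw [← geom_sum₂_mul, norm_mul, norm_sub_rev]
    refine mul_lt_one_of_nonneg_of_lt_one_right ?_ (norm_nonneg _) h4
    refine IsUltrametricDist.norm_sum_le_of_forall_le_of_nonneg zero_le_one fun i _ => ?_
    rw [norm_mul, norm_pow, norm_pow, hnw, norm_natCast_eq_one (not_dvd_slot hf hN), one_pow,
      one_pow, mul_one]
  by_contra hne
  have hne1 : u - 1 ≠ 0 := fun h => hne (by
    rw [sub_eq_zero, hu, div_eq_one_iff_eq hw0] at h
    exact h)
  have h0 : ∑ i ∈ range (p - 1), u ^ i = 0 := by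
    have := geom_sum_mul u (p - 1)
    rw [hu1, sub_self] at this
    exact (mul_eq_zero.1 this).resolve_right hne1
  have hlt : ‖((p - 1 : ℕ) : Cp)‖ < 1 := by
    rw [← norm_neg, ← zero_sub, ← h0]
    have hconst : ∑ i ∈ range (p - 1), u ^ i - ((p - 1 : ℕ) : Cp) =
        ∑ i ∈ range (p - 1), (u ^ i - 1) := by simp [sum_sub_distrib]
    rw [hconst]
    refine (IsUltrametricDist.norm_sum_le_of_forall_le_of_nonneg (C := ‖u - 1‖) (norm_nonneg _)
      fun i _ => ?_).trans_lt hu2
    rw [← geom_sum_mul, norm_mul]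
    refine mul_le_of_le_one_left (norm_nonneg _)
      (IsUltrametricDist.norm_sum_le_of_forall_le_of_nonneg zero_le_one fun j _ => ?_)
    rw [norm_pow, (pow_eq_one_iff_of_nonneg (norm_nonneg _) hp1.ne').1
      (by rw [← norm_pow, hu1, norm_one]), one_pow]
  rw [norm_natCast_eq_one (Nat.not_dvd_of_pos_of_lt hp1 (Nat.sub_lt hp.out.pos one_pos))] at hlt
  exact lt_irrefl _ hlt

/-- **The product relation** at the powers of `ω⁻¹`. -/
theorem gaussSum_product_omega (hcard : Fintype.card F = p ^ f) (ω : MulChar F ℂ_[p])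
    (hω : ∀ x y : F, ‖ω (x + y) - ω x - ω y‖ < 1) (a : ℕ) :
    ∏ j ∈ range m, -gaussSum (ω⁻¹ ^ (a + j * k)) (traceChar (p := p) F) =
      ω (m : F) ^ (m * a) * (-gaussSum (ω⁻¹ ^ (m * a)) (traceChar (p := p) F)) *
        ∏ j ∈ range m, -gaussSum (ω⁻¹ ^ (j * k)) (traceChar (p := p) F) := by
  have hpos := sub_one_pos hf hN
  have hk : 0 < k := Nat.pos_of_mul_pos_left hpos
  have hFu : Fintype.card Fˣ = m * k := by rw [Fintype.card_units, hcard, hN]
  have hG : ∀ b, -gaussSum (ω⁻¹ ^ b) (traceChar (p := p) F) =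
      dworkPi p ^ (∑ i ∈ range f, b % (m * k) / p ^ i % p) *
        ∏ i ∈ range f, padicGamma p (fracPart p f (b % (m * k)) i) := fun b => by
    rw [show ω⁻¹ ^ b = ω⁻¹ ^ (b % (m * k)) by
      exact pow_eq_pow_mod b (hFu ▸ MulChar.pow_card_eq_one ω⁻¹)]
    exact grossKoblitz_field F hcard ω hω (by rw [hN]; exact Nat.mod_lt b hpos)
  have hω1 : ω (m : F) ^ (m * a) = leftFactor hf hN (m * a % (m * k)) := by
    rw [leftFactor_eq hf hN F ω hω (Nat.mod_lt _ hpos)]
    refine pow_eq_pow_mod (m * a) ?_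
    rw [← map_pow, ← hN, ← hcard, FiniteField.pow_card_sub_one_eq_one _ (by
      rw [← map_natCast (algebraMap (ZMod p) F), Ne, map_eq_zero, ZMod.natCast_eq_zero_iff]
      exact not_dvd_slot hf hN), MulChar.map_one]
  have hgam : ∏ i ∈ range f, gammaProd m (fracPart p f (m * a % (m * k)) i) =
      leftFactor hf hN (m * a % (m * k)) *
        (∏ i ∈ range f, padicGamma p (fracPart p f (m * a % (m * k)) i)) *
        ∏ i ∈ range f, gammaProd (p := p) m 0 := by
    simp only [gammaProd_eq (not_dvd_slot hf hN) (fracPart p f (m * a % (m * k)) _),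
      prod_mul_distrib]
    refine congrArg (· * _ * _) (prod_reflect_periodic
      (fun i => gammaFactor (not_dvd_slot hf hN) (fracPart p f (m * a % (m * k)) i)) ?_).symm
    refine congrArg _ (congrArg (fun r : ℕ => (r : ℤ_[p]) * _) ?_)
    have := two_le_prime_pow (p := p) hf
    rw [pow_zero, mul_one, show p ^ f = p ^ f - 1 + 1 by omega, mul_add, mul_one, Nat.add_sub_cancel,
      add_comm, Nat.add_mul_mod_self_right]
  have hj : ∀ j ∈ range m, j * k % (m * k) = j * k := fun j hj =>
    Nat.mod_eq_of_lt (Nat.mul_lt_mul_of_pos_right (mem_range.1 hj) hk)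
  have hzero : ∏ j ∈ range m, ∏ i ∈ range f, padicGamma p (fracPart p f (j * k % (m * k)) i) =
      ∏ i ∈ range f, gammaProd (p := p) m 0 := by
    have := prod_gamma_eq hf hN 0
    simp only [zero_add, mul_zero, Nat.zero_mod] at this
    rw [this]
    exact prod_congr rfl fun i _ => congrArg _ (by simp [fracPart])
  simp only [hG, prod_mul_distrib, prod_pow_eq_pow_sum]
  rw [prod_gamma_eq hf hN a, hgam, hzero, digit_sum_relation hf hN a, hω1,
    show (∑ j ∈ range m, ∑ i ∈ range f, j * k % (m * k) / p ^ i % p) =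
      ∑ j ∈ range m, ∑ i ∈ range f, j * k / p ^ i % p from
      sum_congr rfl fun j hjm => by rw [hj j hjm], pow_add]
  ring

end Teichmuller

end Fermat.Agent.GaussProduct

end
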